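/-
S18 / wave 4 (helper63): leaves P3a / P3b of helper47's sub-skeleton 2 of Leaf C `kummer_cech`
(route of report #1088).

* `exists_isLocAt` : the localisation of `C` at the prime `ϖ C` exists as a subalgebra of `F`.
* `isLocAt_of_glue` : two charts glued along `j` have the same localisation at `ϖ`.
-/
import Fermat.Agent.S18.H47.Loc

set_option autoImplicit false

noncomputable section

namespace Fermat.Agent.S18.H63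

open Fermat.Agent.S18.H47

variable {A₀ : Type*} [CommRing A₀] {F : Type*} [Field F] [Algebra A₀ F]

/-- An element of `C` not divisible by `ϖ` is nonzero. -/
theorem ne_zero_of_not_dv {ϖ : A₀} {C : Subalgebra A₀ F} {c : F} (h : ¬ Dv ϖ C c) : c ≠ 0 := by
  rintro rfl
  exact h ⟨0, C.zero_mem, by rw [smul_zero]⟩

/-- The localisation of `C` at the prime `ϖ C`, as a subalgebra of `F`. -/
def locAt (ϖ : A₀) (C : Subalgebra A₀ F) (hprime : IsPrimeElt ϖ C) : Subalgebra A₀ F where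
  carrier := {y | ∃ c ∈ C, ¬ Dv ϖ C c ∧ y * c ∈ C}
  mul_mem' := by
    rintro y₁ y₂ ⟨c₁, hc₁, hn₁, h₁⟩ ⟨c₂, hc₂, hn₂, h₂⟩
    refine ⟨c₁ * c₂, C.mul_mem hc₁ hc₂, hprime.not_dv_mul hc₁ hc₂ hn₁ hn₂, ?_⟩
    have : y₁ * y₂ * (c₁ * c₂) = (y₁ * c₁) * (y₂ * c₂) := by ring
    rw [this]
    exact C.mul_mem h₁ h₂
  add_mem' := by
    rintro y₁ y₂ ⟨c₁, hc₁, hn₁, h₁⟩ ⟨c₂, hc₂, hn₂, h₂⟩
    refine ⟨c₁ * c₂, C.mul_mem hc₁ hc₂, hprime.not_dv_mul hc₁ hc₂ hn₁ hn₂, ?_⟩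
    have : (y₁ + y₂) * (c₁ * c₂) = (y₁ * c₁) * c₂ + (y₂ * c₂) * c₁ := by ring
    rw [this]
    exact C.add_mem (C.mul_mem h₁ hc₂) (C.mul_mem h₂ hc₁)
  algebraMap_mem' r := ⟨1, C.one_mem, hprime.one, by
    rw [mul_one]
    exact C.algebraMap_mem r⟩

theorem isLocAt_locAt (ϖ : A₀) (C : Subalgebra A₀ F) (hprime : IsPrimeElt ϖ C) :
    IsLocAt ϖ C (locAt ϖ C hprime) where
  le := fun y hy => ⟨1, C.one_mem, hprime.one, by rw [mul_one]; exact hy⟩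
  exists_mul_mem := fun _ hy => hy
  inv_mem := fun c hc hn => ⟨c, hc, hn, by
    rw [inv_mul_cancel₀ (ne_zero_of_not_dv hn)]
    exact C.one_mem⟩

/-- **P3a.** The localisation of `C` at the prime `ϖ C` exists as a subalgebra of `F`. -/
theorem exists_isLocAt (ϖ : A₀) (C : Subalgebra A₀ F) (hprime : IsPrimeElt ϖ C) :
    ∃ O : Subalgebra A₀ F, IsLocAt ϖ C O :=
  ⟨locAt ϖ C hprime, isLocAt_locAt ϖ C hprime⟩

/-- **P3b.** Two charts glued along `j` have the same localisation at `ϖ`. -/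
theorem isLocAt_of_glue (ϖ : A₀) (C₁ C₂ O : Subalgebra A₀ F) (hp₁ : IsPrimeElt ϖ C₁)
    (hp₂ : IsPrimeElt ϖ C₂) (j : F) (hj₁ : j ∈ C₁) (hj₂ : j⁻¹ ∈ C₂)
    (hglue : ∀ x : F, (∃ n : ℕ, j ^ n * x ∈ C₁) ↔ (∃ n : ℕ, j⁻¹ ^ n * x ∈ C₂))
    (hjn : ∀ n : ℕ, ¬ Dv ϖ C₁ (j ^ n)) (hloc : IsLocAt ϖ C₁ O) : IsLocAt ϖ C₂ O := by
  have hj0 : j ≠ 0 := by
    have := ne_zero_of_not_dv (hjn 1)
    simpa using this
  -- transfer between the charts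
  have h12 : ∀ x ∈ C₁, ∃ n : ℕ, j⁻¹ ^ n * x ∈ C₂ := fun x hx =>
    (hglue x).mp ⟨0, by simpa using hx⟩
  have h21 : ∀ x ∈ C₂, ∃ n : ℕ, j ^ n * x ∈ C₁ := fun x hx =>
    (hglue x).mpr ⟨0, by simpa using hx⟩
  -- `ϖ ∤ j⁻ⁿ` in `C₂`
  have hjn₂ : ∀ m : ℕ, ¬ Dv ϖ C₂ (j⁻¹ ^ m) := by
    rintro m ⟨d, hd, hd'⟩
    obtain ⟨n, hn⟩ := h21 d hd
    refine hjn n ⟨j ^ m * (j ^ n * d), C₁.mul_mem (C₁.pow_mem hj₁ m) hn, ?_⟩
    have h1 : j ^ m * j⁻¹ ^ m = 1 := by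
      rw [← mul_pow, mul_inv_cancel₀ hj0, one_pow]
    calc j ^ n = j ^ n * (j ^ m * j⁻¹ ^ m) := by rw [h1, mul_one]
      _ = j ^ n * (j ^ m * (ϖ • d)) := by rw [hd']
      _ = ϖ • (j ^ m * (j ^ n * d)) := by
        rw [Algebra.smul_def, Algebra.smul_def]; ring
  -- divisibility transfers
  have hdv12 : ∀ c ∈ C₁, ¬ Dv ϖ C₁ c → ∀ M : ℕ, ¬ Dv ϖ C₂ (j⁻¹ ^ M * c) := by
    rintro c hc hnc M ⟨d, hd, hd'⟩
    obtain ⟨n, hn⟩ := h21 d hd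
    have hdv : Dv ϖ C₁ (j ^ n * c) := by
      refine ⟨j ^ M * (j ^ n * d), C₁.mul_mem (C₁.pow_mem hj₁ M) hn, ?_⟩
      have h1 : j ^ M * j⁻¹ ^ M = 1 := by
        rw [← mul_pow, mul_inv_cancel₀ hj0, one_pow]
      calc j ^ n * c = j ^ n * (j ^ M * (j⁻¹ ^ M * c)) := by
            rw [← mul_assoc (j ^ M), h1, one_mul]
        _ = j ^ n * (j ^ M * (ϖ • d)) := by rw [hd']
        _ = ϖ • (j ^ M * (j ^ n * d)) := by
          rw [Algebra.smul_def, Algebra.smul_def]; ring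
    rcases hp₁.mul _ (C₁.pow_mem hj₁ n) c hc hdv with h | h
    · exact hjn n h
    · exact hnc h
  have hdv21 : ∀ c ∈ C₂, ¬ Dv ϖ C₂ c → ∀ n : ℕ, j ^ n * c ∈ C₁ → ¬ Dv ϖ C₁ (j ^ n * c) := by
    rintro c hc hnc n - ⟨d, hd, hd'⟩
    obtain ⟨m, hm⟩ := h12 d hd
    have hdv : Dv ϖ C₂ (j⁻¹ ^ m * c) := by
      refine ⟨j⁻¹ ^ n * (j⁻¹ ^ m * d), C₂.mul_mem (C₂.pow_mem hj₂ n) hm, ?_⟩
      have h1 : j⁻¹ ^ n * j ^ n = 1 := by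
        rw [← mul_pow, inv_mul_cancel₀ hj0, one_pow]
      calc j⁻¹ ^ m * c = j⁻¹ ^ m * (j⁻¹ ^ n * (j ^ n * c)) := by
            rw [← mul_assoc (j⁻¹ ^ n), h1, one_mul]
        _ = j⁻¹ ^ m * (j⁻¹ ^ n * (ϖ • d)) := by rw [hd']
        _ = ϖ • (j⁻¹ ^ n * (j⁻¹ ^ m * d)) := by
          rw [Algebra.smul_def, Algebra.smul_def]; ring
    rcases hp₂.mul _ (C₂.pow_mem hj₂ m) c hc hdv with h | h
    · exact hjn₂ m h
    · exact hnc h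
  refine ⟨?_, ?_, ?_⟩
  · -- `C₂ ≤ O`
    intro y hy
    obtain ⟨n, hn⟩ := h21 y hy
    have h1 : y = (j ^ n * y) * (j ^ n)⁻¹ := by
      field_simp
    rw [h1]
    exact O.mul_mem (hloc.le hn) (hloc.inv_mem _ (C₁.pow_mem hj₁ n) (hjn n))
  · -- denominators in `C₂`
    intro y hy
    obtain ⟨c₁, hc₁, hn₁, hyc₁⟩ := hloc.exists_mul_mem y hy
    obtain ⟨m, hm⟩ := h12 c₁ hc₁
    obtain ⟨m', hm'⟩ := h12 (y * c₁) hyc₁
    refine ⟨j⁻¹ ^ (m + m') * c₁, ?_, hdv12 c₁ hc₁ hn₁ _, ?_⟩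
    · have : j⁻¹ ^ (m + m') * c₁ = j⁻¹ ^ m' * (j⁻¹ ^ m * c₁) := by
        rw [pow_add]; ring
      rw [this]
      exact C₂.mul_mem (C₂.pow_mem hj₂ m') hm
    · have : y * (j⁻¹ ^ (m + m') * c₁) = j⁻¹ ^ m * (j⁻¹ ^ m' * (y * c₁)) := by
        rw [pow_add]; ring
      rw [this]
      exact C₂.mul_mem (C₂.pow_mem hj₂ m) hm'
  · -- inverses
    intro c hc hnc
    obtain ⟨n, hn⟩ := h21 c hc
    have hn' := hdv21 c hc hnc n hn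
    have hc0 : c ≠ 0 := ne_zero_of_not_dv hnc
    have h1 : c⁻¹ = j ^ n * (j ^ n * c)⁻¹ := by
      field_simp
    rw [h1]
    exact O.mul_mem (hloc.le (C₁.pow_mem hj₁ n)) (hloc.inv_mem _ hn hn')

end Fermat.Agent.S18.H63
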