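/-
S18 / wave 4 (helper63): leaf P4 of helper47's sub-skeleton 2 of Leaf C
(`exists_finset_span_integralClosure`, statement VERBATIM):
for a noetherian integrally closed chart `C ⊆ F` (fraction field `F`) which is a finite module
over `A₀[j]`, the integral closure of `C` in a finite separable extension `E / F` is spanned
over `A₀[j]` by a finite set of integral elements.
Mathlib only.
-/
import Mathlib

set_option autoImplicit false

noncomputable section

namespace Fermat.Agent.S18.H63

variable {A₀ : Type*} [CommRing A₀] {F : Type*} [Field F] [Algebra A₀ F]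

/-- The image of `A₀[j]` in an extension `E` lies in `A₀[j]` (computed in `E`). -/
theorem algebraMap_mem_adjoin_singleton {E : Type*} [Field E] [Algebra F E] [Algebra A₀ E]
    [IsScalarTower A₀ F E] (j : F) {r : F} (hr : r ∈ Algebra.adjoin A₀ ({j} : Set F)) :
    algebraMap F E r ∈ Algebra.adjoin A₀ ({algebraMap F E j} : Set E) := by
  have h := AlgHom.map_adjoin (IsScalarTower.toAlgHom A₀ F E) ({j} : Set F)
  rw [Set.image_singleton] at h
  have h2 : (IsScalarTower.toAlgHom A₀ F E) r ∈
      Subalgebra.map (IsScalarTower.toAlgHom A₀ F E) (Algebra.adjoin A₀ ({j} : Set F)) :=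
    Subalgebra.mem_map.mpr ⟨r, hr, rfl⟩
  rw [h] at h2
  exact h2

/-- A chart with `∀ x, x = a / b` (`a, b ∈ C`) has fraction field `F`. -/
theorem isFractionRing_of_hfrac (C : Subalgebra A₀ F)
    (hfrac : ∀ x : F, ∃ a ∈ C, ∃ b ∈ C, b ≠ 0 ∧ x = a / b) : IsFractionRing ↥C F := by
  refine IsFractionRing.of_field ↥C F ?_
  intro z
  obtain ⟨a, ha, b, hb, -, rfl⟩ := hfrac z
  exact ⟨⟨a, ha⟩, ⟨b, hb⟩, rfl⟩

/-- Core of P4, for any finite `C`-module of generators of the integral closure. -/
theorem mem_span_of_generators (j : F) (C : Subalgebra A₀ F) (s : Finset F)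
    (hs : (C : Set F) = Submodule.span (Algebra.adjoin A₀ ({j} : Set F)) (s : Set F))
    {E : Type*} [Field E] [Algebra F E] [Algebra A₀ E] [IsScalarTower A₀ F E]
    [DecidableEq E]
    (t : Finset ↥(integralClosure ↥C E))
    (ht : Submodule.span ↥C (t : Set ↥(integralClosure ↥C E)) = ⊤)
    (y : E) (hy : IsIntegral ↥C y) :
    y ∈ Submodule.span (Algebra.adjoin A₀ ({algebraMap F E j} : Set E))
      (((s ×ˢ t).image (fun p => algebraMap F E p.1 * (p.2 : E)) : Finset E) : Set E) := by
  set N := Submodule.span (Algebra.adjoin A₀ ({algebraMap F E j} : Set E))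
      (((s ×ˢ t).image (fun p => algebraMap F E p.1 * (p.2 : E)) : Finset E) : Set E) with hN
  -- sub-claim: `φ c * τ ∈ N` for `c ∈ C`, `τ ∈ t`
  have hsub' : ∀ τ ∈ t, ∀ c : F,
      c ∈ Submodule.span (Algebra.adjoin A₀ ({j} : Set F)) (s : Set F) →
      algebraMap F E c * (τ : E) ∈ N := by
    intro τ hτ c hc'
    induction hc' using Submodule.span_induction with
    | mem σ hσ =>
      apply Submodule.subset_span
      rw [Finset.mem_coe]
      exact Finset.mem_image.mpr ⟨(σ, τ), Finset.mem_product.mpr ⟨hσ, hτ⟩, rfl⟩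
    | zero => simp
    | add a b _ _ ha hb =>
      rw [map_add, add_mul]
      exact N.add_mem ha hb
    | smul r a _ ha =>
      have h1 : algebraMap F E (r • a) * (τ : E) =
          (⟨algebraMap F E (r : F), algebraMap_mem_adjoin_singleton j r.2⟩ :
            ↥(Algebra.adjoin A₀ ({algebraMap F E j} : Set E))) • (algebraMap F E a * (τ : E)) := by
        rw [Subalgebra.smul_def, Subalgebra.smul_def, smul_eq_mul, smul_eq_mul, map_mul, mul_assoc]
      rw [h1]
      exact N.smul_mem _ ha
  have hsub : ∀ τ ∈ t, ∀ c : F, c ∈ C → algebraMap F E c * (τ : E) ∈ N := by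
    intro τ hτ c hc
    apply hsub' τ hτ c
    have : c ∈ (C : Set F) := hc
    rw [hs] at this
    exact this
  -- main claim by induction on the `C`-span of `t`
  have hmain : ∀ z : ↥(integralClosure ↥C E),
      z ∈ Submodule.span ↥C (t : Set ↥(integralClosure ↥C E)) →
      ∀ c : F, c ∈ C → algebraMap F E c * (z : E) ∈ N := by
    intro z hz
    induction hz using Submodule.span_induction with
    | mem τ hτ => exact hsub τ hτ
    | zero => intro c _; simp
    | add a b _ _ ha hb =>
      intro c hc
      have : algebraMap F E c * ((a + b : ↥(integralClosure ↥C E)) : E) =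
          algebraMap F E c * (a : E) + algebraMap F E c * (b : E) := by
        rw [← mul_add]; rfl
      rw [this]
      exact N.add_mem (ha c hc) (hb c hc)
    | smul c' a _ ha =>
      intro c hc
      have : algebraMap F E c * ((c' • a : ↥(integralClosure ↥C E)) : E) =
          algebraMap F E (c * (c' : F)) * (a : E) := by
        have h2 : ((c' • a : ↥(integralClosure ↥C E)) : E) = algebraMap F E (c' : F) * (a : E) := by
          rw [Algebra.smul_def]; rfl
        rw [h2, map_mul, mul_assoc]
      rw [this]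
      exact ha _ (C.mul_mem hc c'.2)
  have hy' : (⟨y, hy⟩ : ↥(integralClosure ↥C E)) ∈
      Submodule.span ↥C (t : Set ↥(integralClosure ↥C E)) := by
    rw [ht]; exact Submodule.mem_top
  have := hmain ⟨y, hy⟩ hy' 1 C.one_mem
  simpa using this

/-- P4 (helper47 Skel2, statement verbatim). -/
theorem exists_finset_span_integralClosure [IsDomain A₀] (j : F) (C : Subalgebra A₀ F)
    [IsIntegrallyClosed ↥C] [IsNoetherianRing ↥C] (hj : j ∈ C)
    (hfrac : ∀ x : F, ∃ a ∈ C, ∃ b ∈ C, b ≠ 0 ∧ x = a / b)
    (hfin : ∃ s : Finset F, (C : Set F) =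
      Submodule.span (Algebra.adjoin A₀ ({j} : Set F)) (s : Set F))
    {E : Type*} [Field E] [Algebra F E] [Algebra A₀ E] [IsScalarTower A₀ F E]
    [FiniteDimensional F E] [Algebra.IsSeparable F E] :
    ∃ s : Finset E, (∀ b ∈ s, IsIntegral ↥C b) ∧ ∀ y : E, IsIntegral ↥C y →
      y ∈ Submodule.span (Algebra.adjoin A₀ ({algebraMap F E j} : Set E)) (s : Set E) := by
  classical
  have _ := hj
  obtain ⟨s, hs⟩ := hfin
  have hfr : IsFractionRing ↥C F := isFractionRing_of_hfrac C hfrac
  have hfinB : Module.Finite ↥C ↥(integralClosure ↥C E) :=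
    IsIntegralClosure.finite ↥C F E ↥(integralClosure ↥C E)
  obtain ⟨t, ht⟩ := hfinB.fg_top
  refine ⟨(s ×ˢ t).image (fun p => algebraMap F E p.1 * (p.2 : E)), ?_, ?_⟩
  · intro b hb
    obtain ⟨⟨σ, τ⟩, hστ, rfl⟩ := Finset.mem_image.mp hb
    have hσ : σ ∈ C := by
      have : σ ∈ (C : Set F) := by
        rw [hs]; exact Submodule.subset_span (Finset.mem_product.mp hστ).1
      exact this
    have h1 : IsIntegral ↥C (algebraMap F E σ) := by
      have : algebraMap F E σ = algebraMap ↥C E ⟨σ, hσ⟩ := rfl
      rw [this]; exact isIntegral_algebraMap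
    exact h1.mul τ.2
  · intro y hy
    exact mem_span_of_generators j C s hs t ht y hy

end Fermat.Agent.S18.H63

end
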