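/-
S18 / wave 4 (helper63): leaf P1 of helper47's sub-skeleton 2 of Leaf C (`noeth_and_integral`,
statement VERBATIM), plus the two halves as separate lemmas:
a subalgebra `C` of a field `F` over a noetherian ring `A₀` which, as a set, is the span over
`A₀[j]` of a finite set (with `j ∈ C`) is a noetherian ring, a finite `A₀[j]`-module, and every
element of `C` is integral over `A₀[j]`.
Mathlib only.
-/
import Mathlib

set_option autoImplicit false

noncomputable section

namespace Fermat.Agent.S18.H63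

variable {A₀ : Type*} [CommRing A₀] {F : Type*} [Field F] [Algebra A₀ F]

/-- `A₀[j] ≤ C` when `j ∈ C`. -/
theorem adjoin_singleton_le_of_mem (j : F) (C : Subalgebra A₀ F) (hj : j ∈ C) :
    Algebra.adjoin A₀ ({j} : Set F) ≤ C :=
  Algebra.adjoin_le (by simpa using hj)

/-- `A₀[j]` is a noetherian ring when `A₀` is. -/
theorem isNoetherianRing_adjoin_singleton [IsNoetherianRing A₀] (j : F) :
    IsNoetherianRing ↥(Algebra.adjoin A₀ ({j} : Set F)) :=
  by
  have h : (Algebra.adjoin A₀ ({j} : Set F)).FG := by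
    have := Subalgebra.fg_adjoin_finset (R := A₀) ({j} : Finset F)
    simpa using this
  exact isNoetherianRing_of_fg h

/-- The `A₀[j]`-algebra structure on a chart `C ∋ j` (inclusion). -/
@[reducible] def adjoinAlgebra (j : F) (C : Subalgebra A₀ F) (hj : j ∈ C) :
    Algebra ↥(Algebra.adjoin A₀ ({j} : Set F)) ↥C :=
  (Subalgebra.inclusion (adjoin_singleton_le_of_mem j C hj)).toRingHom.toAlgebra

/-- A chart which, as a set, is a finitely generated `A₀[j]`-submodule of `F` is a finite module
over `A₀[j]` (for the inclusion algebra structure). -/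
theorem finite_of_span (j : F) (C : Subalgebra A₀ F) (hj : j ∈ C)
    (hfin : ∃ s : Finset F, (C : Set F) =
      Submodule.span (Algebra.adjoin A₀ ({j} : Set F)) (s : Set F)) :
    @Module.Finite ↥(Algebra.adjoin A₀ ({j} : Set F)) ↥C _ _ (adjoinAlgebra j C hj).toModule := by
  let _ : Algebra ↥(Algebra.adjoin A₀ ({j} : Set F)) ↥C := adjoinAlgebra j C hj
  obtain ⟨s, hs⟩ := hfin
  -- the inclusion `C → F` as an `A₀[j]`-linear map
  let f : ↥C →ₗ[↥(Algebra.adjoin A₀ ({j} : Set F))] F :=
    { toFun := fun c => (c : F)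
      map_add' := fun _ _ => rfl
      map_smul' := fun _ _ => rfl }
  have hf : Function.Injective f := fun a b h => Subtype.ext h
  refine ⟨Submodule.fg_of_fg_map_injective f hf ?_⟩
  have hmap : (⊤ : Submodule ↥(Algebra.adjoin A₀ ({j} : Set F)) ↥C).map f =
      Submodule.span (Algebra.adjoin A₀ ({j} : Set F)) (s : Set F) := by
    apply SetLike.coe_injective
    rw [← hs]
    ext y
    constructor
    · rintro ⟨c, -, rfl⟩
      exact c.2
    · intro hy
      exact ⟨⟨y, hy⟩, Submodule.mem_top, rfl⟩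
  rw [hmap]
  exact Submodule.fg_span s.finite_toSet

/-- Noetherian half of P1. -/
theorem isNoetherianRing_of_span [IsNoetherianRing A₀] (j : F) (C : Subalgebra A₀ F) (hj : j ∈ C)
    (hfin : ∃ s : Finset F, (C : Set F) =
      Submodule.span (Algebra.adjoin A₀ ({j} : Set F)) (s : Set F)) :
    IsNoetherianRing ↥C := by
  let _ : Algebra ↥(Algebra.adjoin A₀ ({j} : Set F)) ↥C := adjoinAlgebra j C hj
  have : IsNoetherianRing ↥(Algebra.adjoin A₀ ({j} : Set F)) := isNoetherianRing_adjoin_singleton j
  have : Module.Finite ↥(Algebra.adjoin A₀ ({j} : Set F)) ↥C := finite_of_span j C hj hfin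
  exact IsNoetherianRing.of_finite ↥(Algebra.adjoin A₀ ({j} : Set F)) ↥C

/-- Integrality half of P1 (no noetherian hypothesis needed). -/
theorem isIntegral_of_span (j : F) (C : Subalgebra A₀ F) (hj : j ∈ C)
    (hfin : ∃ s : Finset F, (C : Set F) =
      Submodule.span (Algebra.adjoin A₀ ({j} : Set F)) (s : Set F)) :
    ∀ c ∈ C, IsIntegral (Algebra.adjoin A₀ ({j} : Set F)) c := by
  let _ : Algebra ↥(Algebra.adjoin A₀ ({j} : Set F)) ↥C := adjoinAlgebra j C hj
  have : Module.Finite ↥(Algebra.adjoin A₀ ({j} : Set F)) ↥C := finite_of_span j C hj hfin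
  intro c hc
  have h1 : IsIntegral ↥(Algebra.adjoin A₀ ({j} : Set F)) (⟨c, hc⟩ : ↥C) :=
    Algebra.IsIntegral.isIntegral _
  exact IsIntegral.map_of_comp_eq (RingHom.id ↥(Algebra.adjoin A₀ ({j} : Set F)))
    (C.val : ↥C →+* F) rfl h1

/-- P1 (helper47 Skel2, statement verbatim). A chart which is a finite module over `A₀[j]` is a
noetherian ring, integral over `A₀[j]`. -/
theorem noeth_and_integral [IsNoetherianRing A₀] (j : F) (C : Subalgebra A₀ F) (hj : j ∈ C)
    (hfin : ∃ s : Finset F, (C : Set F) =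
      Submodule.span (Algebra.adjoin A₀ ({j} : Set F)) (s : Set F)) :
    IsNoetherianRing ↥C ∧ ∀ c ∈ C, IsIntegral (Algebra.adjoin A₀ ({j} : Set F)) c :=
  ⟨isNoetherianRing_of_span j C hj hfin, isIntegral_of_span j C hj hfin⟩

end Fermat.Agent.S18.H63

end
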